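/-
GOOD LEVEL (helper208): the two charts of `X₀(M)` over a discrete valuation ring `A₀` of residue
characteristic `ℓ ∤ M`, relative to a base coordinate `D : BaseData M ℓ`, are good charts
(`S18.IsChart`: noetherian, normal, `q`-expansion principle, `B / ϖ` Dedekind).
Stated over an ABSTRACT field `K₀` (`[Algebra ℚ K₀] [Algebra K₀ ℚ̄]`).
Assembly of KL-A path S (`S18/Chart/IsChart.lean`, `Gauss/VertJ.lean`, `Base/Coord.lean`,
`Places/Unram.lean`, `Descent/Chart.lean`).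
-/
import Fermat.Agent.S18.Chart.IsChart
import Fermat.Agent.S18.Chart.Mono
import Fermat.Agent.S18.Base.Coord
import Fermat.Agent.S18.Gauss.VertJ
import Fermat.Agent.S18.Places.Unram
import Fermat.Agent.S18.Descent.Chart
import Fermat.Agent.S18.Descent.Union
import Fermat.Agent.S24.Export.Ramification

set_option autoImplicit false
set_option linter.style.haveILetI false

noncomputable section

namespace Fermat.Agent.S18.Good

open Polynomial IntermediateField ModularCurve AlgebraicCurve Fermat.Agent.S24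
open Fermat.Agent.S24.FF Fermat.Agent.S18

variable {K₀ : Type*} [Field K₀] [Algebra ℚ K₀] [Algebra K₀ Kbar]
  {A₀ : ValuationSubring K₀} {ϖ₀ : K₀}

theorem map_map_int' {R S : Type*} [CommRing R] [CommRing S] (f : R →+* S) (g : ℤ[X]) :
    (g.map (Int.castRingHom R)).map f = g.map (Int.castRingHom S) := by
  rw [Polynomial.map_map]
  congr 1
  exact Subsingleton.elim _ _

theorem isAlgebraic_Kbar : Algebra.IsAlgebraic K₀ Kbar := by
  haveI h1 : Algebra.IsAlgebraic ℚ Kbar := AlgebraicClosure.isAlgebraic ℚ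
  exact Algebra.IsAlgebraic.tower_top (K := ℚ) K₀

/-- base change of the coordinate to `ℚ̄` -/
theorem baseChangeMap_xK {M ℓ : ℕ} (D : BaseData M ℓ) :
    Descent.baseChangeMap (modularFunctionFieldFull M) (algebraMap K₀ Kbar) (D.xK K₀) =
      D.xK Kbar :=
  Subtype.ext (Descent.coeffMap_coeffEmb' _ _)

omit [Algebra K₀ Kbar] in
/-- the vertical hypotheses relative to `K₀(x)` -/
theorem isVert_base (h₀ : IsUnif A₀ ϖ₀) {M ℓ : ℕ} [NeZero M] [Fact ℓ.Prime] (hℓ : ¬ ℓ ∣ M)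
    (hℓA : (ℓ : K₀) / ϖ₀ ∈ A₀) (D : BaseData M ℓ) {Ow : ValuationSubring (FK K₀ M)}
    (hG : IsGauss A₀ ϖ₀ (FK K₀ M) Ow) : IsVert A₀ ϖ₀ Ow K₀⟮D.xK K₀⟯ := by
  obtain ⟨U, -, -⟩ := S28.Export.exists_good_UData M ℓ hℓ
  exact (isVert_j h₀ hℓ hℓA U hG).mono (adjoin_jK_le D K₀)

theorem isUnramOutside_base₁ {M ℓ : ℕ} [NeZero M] (D : BaseData M ℓ) :
    IsUnramOutside (D.xK K₀) (D.g₁.map (Int.castRingHom K₀)) := by
  haveI : IsFF1 Kbar (FN M) := Export.isFF1 M
  have htrbar : Transcendental Kbar (D.xK Kbar) := transcendental_xK D Kbar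
  haveI : FiniteDimensional Kbar⟮D.xK Kbar⟯ (FK Kbar M) := IsFF1.finite _ htrbar
  haveI : Algebra.IsAlgebraic K₀ Kbar := isAlgebraic_Kbar
  haveI : CharZero K₀ := algebraRat.charZero K₀
  apply isUnramOutside_descent
    (Descent.baseChangeMap (modularFunctionFieldFull M) (algebraMap K₀ Kbar))
    (Descent.baseChangeMap_algebraMap (algebraMap K₀ Kbar))
  rw [map_map_int', baseChangeMap_xK]
  exact isUnramOutside_of_places htrbar _ fun v c hc hv => D.ram₁ v c hc hv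

theorem isUnramOutside_base₂ {M ℓ : ℕ} [NeZero M] (D : BaseData M ℓ) :
    IsUnramOutside (D.xK K₀)⁻¹ (D.g₂.map (Int.castRingHom K₀)) := by
  haveI : IsFF1 Kbar (FN M) := Export.isFF1 M
  have htrbar : Transcendental Kbar (D.xK Kbar)⁻¹ :=
    Fermat.Agent.S18.transcendental_inv (transcendental_xK D Kbar)
  haveI : FiniteDimensional Kbar⟮(D.xK Kbar)⁻¹⟯ (FK Kbar M) := IsFF1.finite _ htrbar
  haveI : Algebra.IsAlgebraic K₀ Kbar := isAlgebraic_Kbar
  haveI : CharZero K₀ := algebraRat.charZero K₀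
  apply isUnramOutside_descent
    (Descent.baseChangeMap (modularFunctionFieldFull M) (algebraMap K₀ Kbar))
    (Descent.baseChangeMap_algebraMap (algebraMap K₀ Kbar))
  rw [map_map_int', map_inv₀, baseChangeMap_xK]
  exact isUnramOutside_of_places htrbar _ fun v c hc hv => D.ram₂ v c hc hv

/-- **Good level, chart of `x`.** -/
theorem isChart_base (h₀ : IsUnif A₀ ϖ₀) {M ℓ : ℕ} [NeZero M] [Fact ℓ.Prime] (hℓ : ¬ ℓ ∣ M)
    (hℓA : (ℓ : K₀) / ϖ₀ ∈ A₀) (D : BaseData M ℓ) {Ow : ValuationSubring (FK K₀ M)}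
    (hG : IsGauss A₀ ϖ₀ (FK K₀ M) Ow) :
    IsChart Ow (algebraMap K₀ (FK K₀ M) ϖ₀) (chart A₀.toSubring (D.xK K₀)) := by
  haveI : CharZero K₀ := algebraRat.charZero K₀
  refine isChart_chart (isVert_base h₀ hℓ hℓA D hG) (isCoord_base h₀ D hG)
    (D.g₁.map (Int.castRingHom A₀)) (squarefree_map_residue h₀ hℓA D.g₁ D.sep₁) ?_
  rw [map_map_int']
  exact isUnramOutside_base₁ D

/-- **Good level, chart of `x⁻¹`.** -/
theorem isChart_base_inv (h₀ : IsUnif A₀ ϖ₀) {M ℓ : ℕ} [NeZero M] [Fact ℓ.Prime] (hℓ : ¬ ℓ ∣ M)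
    (hℓA : (ℓ : K₀) / ϖ₀ ∈ A₀) (D : BaseData M ℓ) {Ow : ValuationSubring (FK K₀ M)}
    (hG : IsGauss A₀ ϖ₀ (FK K₀ M) Ow) :
    IsChart Ow (algebraMap K₀ (FK K₀ M) ϖ₀) (chart A₀.toSubring (D.xK K₀)⁻¹) := by
  haveI : CharZero K₀ := algebraRat.charZero K₀
  refine isChart_chart (isVert_base h₀ hℓ hℓA D hG) (isCoord_base_inv h₀ D hG)
    (D.g₂.map (Int.castRingHom A₀)) (squarefree_map_residue h₀ hℓA D.g₂ D.sep₂) ?_
  rw [map_map_int']
  exact isUnramOutside_base₂ D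

end Fermat.Agent.S18.Good

end
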